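import Fermat.Agent.A3.GR.Leaves
import Fermat.Agent.A3.H675.Ant
import Fermat.Agent.A2.IF.H9.InertiaClosed
import Fermat.Agent.S37.H817.GalInertia

/-!
# A3 / GOODRED-INST — leaves IBASE and ILIFT  (helper675)

* `iBase A : IBaseStatement A` — inertia preserves `A` and is trivial on the residue field
  (unfolding of `inertiaSubgroupIn`; citation of `S37.H817`);
* `iLift hℓ hA : ILiftStatement A` — every residue constant has an inertia-invariant lift
  (Teichmüller lift by a root of unity of order prime to `ℓ`: `A3.H675.exists_fixed_lift`);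
* `isInertiaAt_iff` — the inertia predicate `∀ a ∈ A, σ a - a ∈ 𝔪` is membership in
  `A.inertiaSubgroupIn ℚ` (citation of `A2.IF.H9`).
-/

set_option autoImplicit false
set_option synthInstance.maxHeartbeats 400000

noncomputable section

namespace Fermat.Agent.A3.GR.H675

open AlgebraicCurve ModularCurve IsLocalRing
open Fermat.Agent.S37.Rim Fermat.Agent.A3.GR

/-- inertia in terms of elements -/
theorem mem_inertia_iff (A : ValuationSubring Qb) (σ : Qb ≃ₐ[ℚ] Qb) :
    σ ∈ A.inertiaSubgroupIn ℚ ↔ ∀ a : Qb, a ∈ A → σ a - a ∈ A.nonunits := by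
  haveI : Algebra.IsAlgebraic ℚ Qb := AlgebraicClosure.isAlgebraic ℚ
  exact Fermat.Agent.A2.IF.H9.mem_inertiaSubgroupIn_iff_forall A σ

/-- **LEAF IBASE.** -/
theorem iBase (A : ValuationSubring Qb) : IBaseStatement A := fun _ hσ a =>
  ⟨Fermat.Agent.S37.H817.mem_of_mem_inertiaSubgroupIn ℚ hσ a,
    Fermat.Agent.S37.H817.residue_of_mem_inertiaSubgroupIn ℚ hσ a⟩

theorem isAlgebraic_int (x : Qb) : IsAlgebraic ℤ x :=
  (IsFractionRing.isAlgebraic_iff ℤ ℚ Qb).mpr ((AlgebraicClosure.isAlgebraic ℚ).isAlgebraic x)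

/-- **LEAF ILIFT.** -/
theorem iLift {ℓ : ℕ} (hℓ : ℓ.Prime) {A : ValuationSubring Qb} (hA : A.LiesOverPrime ℓ) :
    ILiftStatement A := by
  intro c
  obtain ⟨a, ha, hfix⟩ := Fermat.Agent.A3.H675.exists_fixed_lift A isAlgebraic_int hℓ hA c
  refine ⟨a, ha, fun σ hσ => ?_⟩
  exact hfix σ.toRingEquiv fun x hx => (mem_inertia_iff A σ).mp hσ x hx

end Fermat.Agent.A3.GR.H675

end
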