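import Fermat.Agent.A3.GR.Assembly
import Fermat.Agent.A3.GR.H675.IBaseILift
import Fermat.Agent.A3.H799.LocalDone
import Fermat.Agent.S19.H979.RankOne
import Fermat.Agent.S19.Top3
import Fermat.Agent.S19.Unr.H992.Unr
import Fermat.Agent.S18.H905.Residue

/-!
# A3 / GOODRED-INST — TOP GLUE: frozen S19 from the open GR leaves  (helper675)

Everything else of cell A3 is on main and discharged here:
ORD, FIN, CONT, LEVEL, RANK ONE (`S19.Top3`), UNR (`S19.Unr.H992.unrStatement`),
abstract LOCAL (`A3.H799.localStatement`), the assembly `A3.GR.goodRed_of_leaves`,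
and the leaves IBASE, ILIFT (`A3.GR.H675.iBase`, `iLift`).

* `OpenLeaves A M`      : the SEVEN open leaves of `A3/GR/Leaves.lean` at `(M, A)`
                          (GAUSS, RSURJ, RIM, GENUS, ORTHO, IRED, IFIXED);
* `GrLeavesStatement`   : for every good level `M` and prime `ℓ ∤ M` the open leaves hold at
                          ONE valuation subring `A` of `ℚ̄` over `ℓ`;
* `grStatement_of_leaves`   : `GrLeavesStatement → S19.H979.GrStatement`;
* `localStatement_of_leaves`: `GrLeavesStatement → S19.LocalStatement`;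
* `frozenS19_of_leaves`     : `GrLeavesStatement →` the conclusion of the frozen statement S19.
-/

set_option autoImplicit false
set_option synthInstance.maxHeartbeats 400000
set_option linter.style.haveILetI false

noncomputable section

namespace Fermat.Agent.A3.GR.H675

open AlgebraicCurve ModularCurve IsLocalRing
open Fermat.Agent.S37.Rim Fermat.Agent.A3.GR

/-- The seven open leaves of GOODRED-INST at `(M, A)`. -/
structure OpenLeaves (A : ValuationSubring Qb) (M : ℕ) [NeZero M] : Prop where
  gauss : GaussStatement A M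
  rsurj : RedSurjStatement A M
  rim : RimStatement A M
  genus : GenusStatement A M
  ortho : OrthoStatement A M
  ired : IRedStatement A M
  ifixed : IFixedStatement A M

/-- The open leaves at one place above every prime not dividing a good level. -/
def GrLeavesStatement : Prop :=
  ∀ (M : ℕ) [NeZero M] (ℓ : ℕ) [Fact ℓ.Prime], ¬ ℓ ∣ M → Fermat.Agent.S19.GoodLevel M ℓ →
    ∃ A : ValuationSubring Qb, A.LiesOverPrime ℓ ∧ OpenLeaves A M

/-- the good reduction datum from the open leaves -/
def goodRed_of_openLeaves {M : ℕ} [NeZero M] {ℓ : ℕ} (hℓ : ℓ.Prime) (hℓM : ¬ ℓ ∣ M)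
    {A : ValuationSubring Qb} (hA : A.LiesOverPrime ℓ) (L : OpenLeaves A M) :
    Fermat.Agent.A3.H799.GoodRed Qb (FM M) (kA A) (FkM A M) :=
  goodRed_of_leaves ℓ hℓ hℓM hA L.gauss L.rsurj L.rim L.genus L.ortho (iBase A) L.ired
    (iLift hℓ hA) L.ifixed

/-- **GR from the open leaves.** -/
theorem grStatement_of_leaves (h : GrLeavesStatement) : Fermat.Agent.S19.H979.GrStatement := by
  intro N _ ℓ hℓ hℓN hgood
  obtain ⟨A, hA, L⟩ := h N ℓ hℓN hgood
  refine ⟨kA A, inferInstance, Fermat.Agent.S18.H905.isAlgClosed_residueField A, FkM A N,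
    inferInstance, inferInstance, goodRed_of_openLeaves hℓ.out hℓN hA L, hA, ?_⟩
  intro σ hσ
  exact ⟨σ, (mem_inertia_iff A σ).mpr hσ, rfl⟩

/-- the abstract LOCAL theorem (helper799), in the form of `S19.H979.AbsLocalStatement` -/
theorem absLocalStatement : Fermat.Agent.S19.H979.AbsLocalStatement :=
  fun F _ _ k _ _ Fk _ _ => Fermat.Agent.A3.H799.localStatement Qb F k Fk

/-- **LOCAL from the open leaves.** -/
theorem localStatement_of_leaves (h : GrLeavesStatement) : Fermat.Agent.S19.LocalStatement :=
  Fermat.Agent.S19.H979.localStatement_of_abs_gr' absLocalStatement (grStatement_of_leaves h)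

/-- **Frozen S19 from the open leaves of GOODRED-INST.** -/
theorem frozenS19_of_leaves (h : GrLeavesStatement)
    (p : ℕ) [NeZero p] (ℓ : ℕ) [Fact ℓ.Prime] (hℓp : ¬ ℓ ∣ p) (k : ℕ) :
    Fermat.Agent.S19.FrozenConclusion p ℓ k :=
  Fermat.Agent.S19.S19_of_two Fermat.Agent.S19.Unr.H992.unrStatement
    (localStatement_of_leaves h) p ℓ hℓp k

end Fermat.Agent.A3.GR.H675

end
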